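import Fermat.Agent.H3.SS2.UnramLocal
import Fermat.Agent.H35.SS2.Interfaces
import Fermat.Agent.H77.GlobalUnramified

/-!
# P-SS2 row 987 (SS2-C8-U UNRAM): the inertia field is unramified

`unramUniformiser : Fermat.Agent.H35.SS2.UnramUniformiserStatement`: for a number field
`ι : K₁ → ℚ̄` whose image is fixed pointwise by the inertia group of a valuation subring `A` of
`ℚ̄` over `q`, the prime `q` is a uniformiser of `A ∩ K₁`.

Proof: `E` := normal closure of `K₁` in `ℚ̄`, `G = Gal(E/ℚ)`, `H = Gal(E/K₁) ≤ G`, `P` the prime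
of `𝓞 E` below `A`, `𝔭₁` the prime of `𝓞 K₁` below `A`.  The inertia group of `P` in `G` lifts to
the inertia group of `A` (helper77), hence lies in `H`; so
`e(P | ℤ) = #I_G(P) = #I_H(P) = e(P | 𝓞 K₁)` and `e(𝔭₁ | ℤ) = 1` by multiplicativity.
-/

set_option autoImplicit false
set_option linter.style.haveILetI false

noncomputable section

namespace Fermat.Agent.H3.SS2

open NumberField Fermat.Agent.H93.KL Fermat.Agent.H81 Fermat.Agent.H77
open scoped Pointwise

local notation "Qbar" => AlgebraicClosure ℚ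

/-- Membership in the centre of `A ∩ K₁`. -/
theorem mem_valuationCentre_comap {K₁ : Type} [Field K₁] [NumberField K₁]
    (A : ValuationSubring Qbar) (ι : K₁ →+* Qbar) (x : 𝓞 K₁) :
    x ∈ valuationCentre (A.comap ι) ↔ A.valuation (ι (x : K₁)) < 1 := by
  have hxA : ι (x : K₁) ∈ A :=
    ValuationSubring.mem_comap.1 (ringOfIntegers_mem_valuationSubring (A.comap ι) x)
  have hle : A.valuation (ι (x : K₁)) ≤ 1 := (A.valuation_le_one_iff _).2 hxA
  show ringOfIntegersToValuationSubring (A.comap ι) x ∈ IsLocalRing.maximalIdeal _ ↔ _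
  rw [IsLocalRing.mem_maximalIdeal, mem_nonunits_iff]
  constructor
  · intro hnu
    by_contra hlt
    have h1 : A.valuation (ι (x : K₁)) = 1 := le_antisymm hle (not_lt.1 hlt)
    apply hnu
    have hx0 : ι (x : K₁) ≠ 0 := by
      intro h0
      rw [h0, map_zero] at h1
      exact zero_ne_one h1
    have hx0' : (x : K₁) ≠ 0 := fun h => hx0 (by rw [h, map_zero])
    have hinv : ((x : K₁)⁻¹ : K₁) ∈ A.comap ι := by
      rw [ValuationSubring.mem_comap, map_inv₀, ← A.valuation_le_one_iff, map_inv₀, h1, inv_one]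
    refine isUnit_iff_exists_inv.mpr ⟨⟨(x : K₁)⁻¹, hinv⟩, Subtype.ext ?_⟩
    show (x : K₁) * (x : K₁)⁻¹ = 1
    exact mul_inv_cancel₀ hx0'
  · intro hlt hu
    obtain ⟨c, hc⟩ := isUnit_iff_exists_inv.mp hu
    have hc' : (x : K₁) * (c : K₁) = 1 := congrArg Subtype.val hc
    have hcA : ι (c : K₁) ∈ A := ValuationSubring.mem_comap.1 c.2
    have h2 : A.valuation (ι (x : K₁)) * A.valuation (ι (c : K₁)) = 1 := by
      rw [← map_mul, ← map_mul, hc', map_one, map_one]
    have h3 : A.valuation (ι (c : K₁)) ≤ 1 := (A.valuation_le_one_iff _).2 hcA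
    have h4 : A.valuation (ι (x : K₁)) * A.valuation (ι (c : K₁)) < 1 := by
      calc A.valuation (ι (x : K₁)) * A.valuation (ι (c : K₁))
          ≤ A.valuation (ι (x : K₁)) * 1 := mul_le_mul_right h3 _
        _ = A.valuation (ι (x : K₁)) := mul_one _
        _ < 1 := hlt
    rw [h2] at h4
    exact lt_irrefl _ h4

/-- **(U)**, number field form. -/
theorem irreducible_natCast_comap {K₁ : Type} [Field K₁] [NumberField K₁] (q : ℕ)
    (hq : q.Prime) (A : ValuationSubring Qbar) (hA : A.LiesOverPrime q) (ι : K₁ →+* Qbar)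
    (hunr : ∀ σ ∈ A.inertiaSubgroupIn ℚ, ∀ x : K₁, σ (ι x) = ι x) :
    Irreducible ((q : ℕ) : ↥(A.comap ι)) := by
  classical
  haveI := normal_rat_Qbar
  haveI := isAlgebraic_rat_Qbar
  letI algK₁ : Algebra K₁ Qbar := ι.toAlgebra
  have hι : ∀ x : K₁, algebraMap K₁ Qbar x = ι x := fun _ => rfl
  -- the normal closure
  let E : IntermediateField ℚ Qbar := IntermediateField.normalClosure ℚ K₁ Qbar
  haveI : FiniteDimensional ℚ E := normalClosure.is_finiteDimensional ℚ K₁ Qbar
  haveI : Normal ℚ E := normalClosure.normal ℚ K₁ Qbar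
  haveI : IsGalois ℚ E := ⟨⟩
  haveI : NumberField E := NumberField.of_module_finite ℚ E
  have hκ : ∀ x : K₁, ((algebraMap K₁ E x : E) : Qbar) = ι x := fun _ => rfl
  -- the primes
  haveI hQp := nonunitIdeal_isPrime A
  set P : Ideal (𝓞 E) := (nonunitIdeal A).comap (ringOfIntegersToIntegralClosure E) with hP
  haveI hPp : P.IsPrime := Ideal.comap_isPrime _ _
  have hmemP : ∀ x : 𝓞 E, x ∈ P ↔ A.valuation (((x : 𝓞 E) : E) : Qbar) < 1 := fun x => Iff.rfl
  set V : ValuationSubring K₁ := A.comap ι with hV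
  set p₁ : Ideal (𝓞 K₁) := valuationCentre V with hp₁
  have hq0 : ((q : ℕ) : Qbar) ≠ 0 := Nat.cast_ne_zero.2 hq.ne_zero
  have hVtop : V ≠ ⊤ := comap_ne_top_of_liesOverPrime ι A hq0 hA
  have hqA : A.valuation ((q : ℕ) : Qbar) < 1 := A.mem_nonunits_iff.mp hA
  have hqp₁ : ((q : ℕ) : 𝓞 K₁) ∈ p₁ := by
    rw [hp₁, mem_valuationCentre_comap]
    have : ι (((q : ℕ) : 𝓞 K₁) : K₁) = ((q : ℕ) : Qbar) := by simp
    rw [this]
    exact hqA
  have hqP : ((q : ℕ) : 𝓞 E) ∈ P := by
    rw [hmemP]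
    have : ((((q : ℕ) : 𝓞 E) : E) : Qbar) = (q : Qbar) := by simp
    rw [this]
    exact hqA
  have hprime : Prime (q : ℤ) := Nat.prime_iff_prime_int.mp hq
  haveI hoverP : P.LiesOver (Ideal.span {(q : ℤ)}) :=
    (Ideal.liesOver_span_iff Ideal.IsPrime.ne_top' hprime).mpr (by simpa using hqP)
  haveI hoverp₁ : p₁.LiesOver (Ideal.span {(q : ℤ)}) :=
    (Ideal.liesOver_span_iff Ideal.IsPrime.ne_top' hprime).mpr (by simpa using hqp₁)
  haveI hPp₁ : P.LiesOver p₁ := by
    constructor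
    ext x
    rw [Ideal.under_def, Ideal.mem_comap, hmemP, hp₁, mem_valuationCentre_comap]
    rfl
  haveI : (Ideal.span {(q : ℤ)}).IsPrime :=
    (Ideal.span_singleton_prime hprime.ne_zero).2 hprime
  -- the groups
  let G := Gal(E/ℚ)
  let H : Subgroup G := fixingSubgroup G (Set.range (algebraMap K₁ E))
  haveI hHgal : IsGaloisGroup H K₁ E := IsGaloisGroup.of_isScalarTower G ℚ E K₁
  haveI : IsGaloisGroup H (𝓞 K₁) (𝓞 E) := IsGaloisGroup.of_isFractionRing H (𝓞 K₁) (𝓞 E) K₁ E
  -- inertia lies in `H`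
  have hIH : P.inertia G ≤ H := by
    intro τ hτ
    have hτ' : ∀ x : 𝓞 E, A.valuation (((τ • x - x : 𝓞 E) : E) : Qbar) < 1 := by
      intro x
      rw [← hmemP]
      exact hτ x
    obtain ⟨σ, hσ, hσE⟩ := exists_mem_inertiaSubgroupIn_restrict_eq E A τ hτ'
    rw [mem_fixingSubgroup_iff]
    rintro _ ⟨x, rfl⟩
    apply Subtype.ext
    have h1 := hσE (algebraMap K₁ E x)
    rw [hκ, hunr σ hσ x] at h1
    show ((τ (algebraMap K₁ E x) : E) : Qbar) = ((algebraMap K₁ E x : E) : Qbar)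
    rw [← h1, hκ]
  -- cardinalities
  have hcardG : Nat.card (P.inertia G) = P.ramificationIdx ℤ := by
    rw [Ideal.card_inertia_eq_ramificationIdxIn (G := G) (Ideal.span {(q : ℤ)}) P,
      Ideal.ramificationIdxIn_eq_ramificationIdx (Ideal.span {(q : ℤ)}) P G]
  have hcardH : Nat.card (P.inertia H) = P.ramificationIdx (𝓞 K₁) := by
    rw [Ideal.card_inertia_eq_ramificationIdxIn (G := H) p₁ P,
      Ideal.ramificationIdxIn_eq_ramificationIdx p₁ P H]
  have hcard : Nat.card (P.inertia H) = Nat.card (P.inertia G) := by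
    have h1 : (P.inertia G).subgroupOf H = P.inertia H :=
      AddSubgroup.subgroupOf_inertia P.toAddSubgroup H
    rw [← h1]
    exact Nat.card_congr (Subgroup.subgroupOfEquivOfLe hIH).toEquiv
  haveI : IsScalarTower ℤ (𝓞 K₁) (𝓞 E) :=
    IsScalarTower.of_algebraMap_eq' (Subsingleton.elim _ _)
  have htower : P.ramificationIdx ℤ = p₁.ramificationIdx ℤ * P.ramificationIdx (𝓞 K₁) :=
    Ideal.ramificationIdx_tower (R := ℤ) p₁ P
  have hpos : 0 < P.ramificationIdx ℤ := Ideal.ramificationIdx_pos P ℤ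
  have he : p₁.ramificationIdx ℤ = 1 := by
    rw [← hcardH, hcard, hcardG] at htower
    have h2 : p₁.ramificationIdx ℤ * P.ramificationIdx ℤ = 1 * P.ramificationIdx ℤ := by
      rw [one_mul]; exact htower.symm
    exact Nat.eq_of_mul_eq_mul_right hpos h2
  exact irreducible_natCast_of_ramificationIdx_eq_one V hVtop q hq hqp₁ he

/-- **(U)** the inertia field is unramified (P-SS2 row 987). -/
theorem unramUniformiser : Fermat.Agent.H35.SS2.UnramUniformiserStatement := by
  intro q hq A hA K₁ _ _ _ ι hunr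
  haveI : NumberField K₁ := NumberField.of_module_finite ℚ K₁
  exact irreducible_natCast_comap q hq A hA ι hunr

end Fermat.Agent.H3.SS2
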