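import Mathlib
import Fermat.Agent.H93.KL.NumberFieldDVR

/-!
# P-SS2 row 987 (SS2-C8-U UNRAM), local part

For a proper valuation subring `V` of a number field `K` with centre `𝔭` on `𝓞 K`:
* `exists_ringEquiv_localization` : `V ≃ (𝓞 K)_𝔭`, compatibly with `𝓞 K`;
* `irreducible_natCast_of_ramificationIdx_eq_one` : if `q ∈ 𝔭` is a rational prime and
  `e(𝔭 | ℤ) = 1`, then `q` is a uniformiser of `V`.
-/

set_option autoImplicit false
set_option linter.style.haveILetI false

noncomputable section

namespace Fermat.Agent.H3.SS2

open NumberField Fermat.Agent.H93.KL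

variable {K : Type} [Field K] [NumberField K]

/-- A proper valuation subring of a number field is the localisation of the ring of integers
at its centre. -/
theorem exists_ringEquiv_localization (V : ValuationSubring K) (hV : V ≠ ⊤) :
    ∃ φ : Localization.AtPrime (valuationCentre V) ≃+* V,
      ∀ r : 𝓞 K, φ (algebraMap (𝓞 K) (Localization.AtPrime (valuationCentre V)) r)
        = ringOfIntegersToValuationSubring V r := by
  have h𝔭0 : valuationCentre V ≠ ⊥ := valuationCentre_ne_bot V hV
  let Rp := Localization.AtPrime (valuationCentre V)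
  have : IsDiscreteValuationRing Rp :=
    IsLocalization.AtPrime.isDiscreteValuationRing_of_dedekind_domain (𝓞 K) h𝔭0 Rp
  -- units
  have hunits : ∀ s : (valuationCentre V).primeCompl,
      IsUnit (ringOfIntegersToValuationSubring V (s : 𝓞 K)) := by
    intro s
    by_contra hs
    exact s.2 (by
      show ringOfIntegersToValuationSubring V (s : 𝓞 K) ∈ IsLocalRing.maximalIdeal V
      rw [IsLocalRing.mem_maximalIdeal, mem_nonunits_iff]
      exact hs)
  let φ : Rp →+* V := IsLocalization.lift (M := (valuationCentre V).primeCompl) hunits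
  have hφ : ∀ r : 𝓞 K, φ (algebraMap (𝓞 K) Rp r) = ringOfIntegersToValuationSubring V r :=
    fun r => IsLocalization.lift_eq hunits r
  letI algRpK : Algebra Rp K := (V.subtype.comp φ).toAlgebra
  have halg : ∀ y : Rp, algebraMap Rp K y = ((φ y : V) : K) := fun y => rfl
  haveI : IsScalarTower (𝓞 K) Rp K := IsScalarTower.of_algebraMap_eq (fun r => by
    rw [halg, hφ]; rfl)
  haveI : IsFractionRing Rp K :=
    IsFractionRing.isFractionRing_of_isDomain_of_isLocalization
      (valuationCentre V).primeCompl Rp K
  have hinj : Function.Injective φ := by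
    intro y z hyz
    apply IsFractionRing.injective Rp K
    rw [halg, halg, hyz]
  have hsurj : Function.Surjective φ := by
    rintro ⟨x, hx⟩
    rcases ValuationRing.isInteger_or_isInteger Rp x with ⟨y, hy⟩ | ⟨y, hy⟩
    · exact ⟨y, Subtype.ext (by rw [← halg, hy])⟩
    · by_cases hx0 : x = 0
      · exact ⟨0, Subtype.ext (by simp [hx0])⟩
      by_cases hyu : IsUnit y
      · obtain ⟨z, hz⟩ := isUnit_iff_exists_inv.mp hyu
        refine ⟨z, Subtype.ext ?_⟩
        have h1 : algebraMap Rp K y * algebraMap Rp K z = 1 := by
          rw [← map_mul, hz, map_one]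
        rw [hy] at h1
        have : algebraMap Rp K z = x := by
          have := inv_eq_of_mul_eq_one_right h1
          rw [inv_inv] at this
          exact this.symm
        show ((φ z : V) : K) = x
        rw [← halg]
        exact this
      · exfalso
        obtain ⟨a, s, rfl⟩ := IsLocalization.exists_mk'_eq (valuationCentre V).primeCompl y
        have ha : a ∈ valuationCentre V := by
          by_contra ha
          exact hyu ((IsLocalization.AtPrime.isUnit_mk'_iff Rp (valuationCentre V) a s).mpr ha)
        have hφa : φ (IsLocalization.mk' Rp a s) * ringOfIntegersToValuationSubring V (s : 𝓞 K)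
            = ringOfIntegersToValuationSubring V a := by
          rw [← hφ, ← hφ, ← map_mul, IsLocalization.mk'_spec]
        have hnon : φ (IsLocalization.mk' Rp a s) ∈ IsLocalRing.maximalIdeal V := by
          have h1 : ringOfIntegersToValuationSubring V a ∈ IsLocalRing.maximalIdeal V := ha
          rw [← hφa] at h1
          rcases (IsLocalRing.maximalIdeal.isMaximal V).isPrime.mem_or_mem h1 with h2 | h2
          · exact h2
          · exact absurd (hunits s) ((IsLocalRing.mem_maximalIdeal _).mp h2)
        rw [IsLocalRing.mem_maximalIdeal, mem_nonunits_iff] at hnon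
        apply hnon
        refine isUnit_iff_exists_inv.mpr ⟨⟨x, hx⟩, Subtype.ext ?_⟩
        show ((φ (IsLocalization.mk' Rp a s) : V) : K) * x = 1
        rw [← halg, hy]
        exact inv_mul_cancel₀ hx0
  exact ⟨RingEquiv.ofBijective φ ⟨hinj, hsurj⟩, hφ⟩

/-- If the centre `𝔭` of `V` contains the rational prime `q` and is unramified over `ℤ`, then
`q` is a uniformiser of `V`. -/
theorem irreducible_natCast_of_ramificationIdx_eq_one (V : ValuationSubring K) (hV : V ≠ ⊤)
    (q : ℕ) (hq : q.Prime) (hqV : (q : 𝓞 K) ∈ valuationCentre V)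
    (he : (valuationCentre V).ramificationIdx ℤ = 1) :
    Irreducible ((q : ℕ) : V) := by
  have h𝔭0 : valuationCentre V ≠ ⊥ := valuationCentre_ne_bot V hV
  obtain ⟨φ, hφ⟩ := exists_ringEquiv_localization V hV
  set Rp := Localization.AtPrime (valuationCentre V) with hRp
  have : IsDiscreteValuationRing Rp :=
    IsLocalization.AtPrime.isDiscreteValuationRing_of_dedekind_domain (𝓞 K) h𝔭0 Rp
  -- the prime below is `(q)`
  have hprime : Prime (q : ℤ) := Nat.prime_iff_prime_int.mp hq
  haveI hover : (valuationCentre V).LiesOver (Ideal.span {(q : ℤ)}) :=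
    (Ideal.liesOver_span_iff Ideal.IsPrime.ne_top' hprime).mpr (by simpa using hqV)
  have hunder : (valuationCentre V).under ℤ = Ideal.span {(q : ℤ)} :=
    (Ideal.over_def (valuationCentre V) (Ideal.span {(q : ℤ)})).symm
  -- unfold the ramification index
  rw [Ideal.ramificationIdx_def, ENat.toNat_eq_iff_eq_natCast, Nat.cast_one,
    Module.length_eq_one_iff, isSimpleModule_iff_isCoatom, ← Ideal.isMaximal_def,
    IsLocalRing.isMaximal_iff, hunder, Ideal.map_span, Set.image_singleton] at he
  have hirr : Irreducible (algebraMap ℤ Rp (q : ℤ)) :=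
    (IsDiscreteValuationRing.irreducible_iff_uniformizer _).2 he.symm
  have h1 : φ (algebraMap ℤ Rp (q : ℤ)) = ((q : ℕ) : V) := by
    rw [eq_intCast (algebraMap ℤ Rp), Int.cast_natCast, map_natCast]
  rw [← h1]
  exact (MulEquiv.irreducible_iff φ.toMulEquiv).2 hirr

end Fermat.Agent.H3.SS2
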